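import Fermat.Agent.S17.H500.Package

/-!
# S17 / tower H, formal leaf F-ELL (helper199)

`theorem ell (P : PairingPackage A) : ∃ l, P.EllStatement l`.

From `gauss`, `e3` (with `E := Rt`), `bez`, `mov1`, `mov2` (with `T := Rt`):

* `L D := pr Rt D - (deg Rt / m) N D` is additive on divisors disjoint from `Rt` (`L_add`);
* `L (Z a) = N Rt + O(1)` uniformly in `a` (`L_Z_bound`);
* hence `L D₁ - L D₂ = O(1)` for linearly equivalent `D₁, D₂` of equal degree `≤ m - 2g`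
  disjoint from `Rt` (`L_class_bound`);
* `K D - ((2g-2)/m) N D = L D + O(deg D)` for good `D` (`K_sub_L_bound`);
* `l x := L (D_x)` for a chosen good representative `D_x` of degree `d`.
-/

set_option autoImplicit false

namespace Fermat.Agent.S17.H199

open Fermat.Agent.S17.H500

variable {A : Type} [AddCommGroup A] (P : PairingPackage A)

theorem m_pos_h199 : 0 < P.m := by
  have h1 := P.one_le_g
  have h2 := P.four_d_le_m
  omega

theorem m_pos_real_h199 : (0 : ℝ) < P.m := by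
  exact_mod_cast m_pos_h199 P

/-- `L` is additive on divisors disjoint from `Rt`. -/
theorem L_add_h199 (D E : P.Dv) (h : P.Disj (D + E) P.Rt) :
    P.L (D + E) = P.L D + P.L E := by
  unfold PairingPackage.L
  rw [P.pr_symm P.Rt (D + E), P.pr_add D E P.Rt h, P.N_add, P.pr_symm D, P.pr_symm E]
  ring

/-- `L (Z a) = N Rt + O(1)`, uniformly in the hyperplane `a`. -/
theorem L_Z_bound_h199 :
    ∃ C : ℝ, ∀ a, P.Disj (P.Z a) P.Rt → |P.L (P.Z a) - P.N P.Rt| ≤ C := by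
  obtain ⟨C₁, h₁⟩ := P.e3
  obtain ⟨C₂, h₂⟩ := P.bez
  refine ⟨C₁ * P.deg P.Rt + ((P.deg P.Rt : ℝ) / P.m) * C₂, fun a ha => ?_⟩
  have e := h₁ a P.Rt ha
  have b := h₂ a
  have hm : (0 : ℝ) < P.m := m_pos_real_h199 P
  have hr : (0 : ℝ) ≤ (P.deg P.Rt : ℝ) / P.m := div_nonneg (Nat.cast_nonneg _) hm.le
  have key : P.L (P.Z a) - P.N P.Rt
      = (P.pr (P.Z a) P.Rt - ((P.deg P.Rt : ℝ) * P.ht a + P.N P.Rt))
        - ((P.deg P.Rt : ℝ) / P.m) * (P.N (P.Z a) - P.m * P.ht a) := by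
    unfold PairingPackage.L
    rw [P.pr_symm P.Rt (P.Z a)]
    field_simp
    ring
  rw [key]
  calc |(P.pr (P.Z a) P.Rt - ((P.deg P.Rt : ℝ) * P.ht a + P.N P.Rt))
        - ((P.deg P.Rt : ℝ) / P.m) * (P.N (P.Z a) - P.m * P.ht a)|
      ≤ |P.pr (P.Z a) P.Rt - ((P.deg P.Rt : ℝ) * P.ht a + P.N P.Rt)|
        + |((P.deg P.Rt : ℝ) / P.m) * (P.N (P.Z a) - P.m * P.ht a)| := abs_sub _ _
    _ = |P.pr (P.Z a) P.Rt - ((P.deg P.Rt : ℝ) * P.ht a + P.N P.Rt)|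
        + ((P.deg P.Rt : ℝ) / P.m) * |P.N (P.Z a) - P.m * P.ht a| := by
      rw [abs_mul, abs_of_nonneg hr]
    _ ≤ C₁ * P.deg P.Rt + ((P.deg P.Rt : ℝ) / P.m) * C₂ :=
      add_le_add e (mul_le_mul_of_nonneg_left b hr)

/-- `L` is a class function up to `O(1)` on divisors disjoint from `Rt` of equal degree
`≤ m - 2g`. -/
theorem L_class_bound_h199 :
    ∃ C : ℝ, ∀ D₁ D₂ : P.Dv, P.deg D₁ = P.deg D₂ → P.deg D₁ + 2 * P.g ≤ P.m →
      P.cls D₁ = P.cls D₂ → P.Disj D₁ P.Rt → P.Disj D₂ P.Rt → |P.L D₁ - P.L D₂| ≤ C := by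
  obtain ⟨C, hC⟩ := L_Z_bound_h199 P
  refine ⟨C + C, fun D₁ D₂ hdeg hm hcls h₁ h₂ => ?_⟩
  obtain ⟨R, a₁, a₂, hZ₁, hZ₂, hR⟩ := P.mov2 D₁ D₂ hdeg hm hcls P.Rt
  have hd₁ : P.Disj (D₁ + R) P.Rt := (P.disj_add_left D₁ R P.Rt).mpr ⟨h₁, hR⟩
  have hd₂ : P.Disj (D₂ + R) P.Rt := (P.disj_add_left D₂ R P.Rt).mpr ⟨h₂, hR⟩
  have e₁ := hC a₁ (by rw [hZ₁]; exact hd₁)
  have e₂ := hC a₂ (by rw [hZ₂]; exact hd₂)
  rw [hZ₁, L_add_h199 P D₁ R hd₁] at e₁
  rw [hZ₂, L_add_h199 P D₂ R hd₂] at e₂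
  have key : P.L D₁ - P.L D₂
      = (P.L D₁ + P.L R - P.N P.Rt) - (P.L D₂ + P.L R - P.N P.Rt) := by ring
  rw [key]
  exact (abs_sub _ _).trans (add_le_add e₁ e₂)

/-- (GAUSS) rewritten: `K D - ((2g-2)/m) N D = L D + O(deg D)` for good `D`. -/
theorem K_sub_L_bound_h199 :
    ∃ C : ℝ, ∀ D : P.Dv, P.Good D →
      |P.L D - (P.K D - ((2 * (P.g : ℝ) - 2) / P.m) * P.N D)| ≤ C * P.deg D := by
  obtain ⟨C, hC⟩ := P.gauss
  refine ⟨C, fun D hD => ?_⟩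
  have h := hC D hD
  have hm : (0 : ℝ) < P.m := m_pos_real_h199 P
  have key : P.L D - (P.K D - ((2 * (P.g : ℝ) - 2) / P.m) * P.N D)
      = -(P.K D - (P.pr P.Rt D - (((P.deg P.Rt : ℝ) - (2 * P.g - 2)) / P.m) * P.N D)) := by
    unfold PairingPackage.L
    field_simp
    ring
  rw [key, abs_neg]
  exact h

/-- **F-ELL.** -/
theorem ell (P : PairingPackage A) : ∃ l : A → ℝ, P.EllStatement l := by
  classical
  -- chosen good representatives of degree `d`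
  have hrep : ∀ x : A, ∃ D : P.Dv, P.deg D = P.d ∧ P.cls D = x ∧ P.Disj D P.Rt ∧ P.Good D :=
    fun x => P.mov1 x P.Rt
  choose rep hdeg hcls hdisj hgood using hrep
  obtain ⟨C₁, h₁⟩ := L_class_bound_h199 P
  obtain ⟨C₂, h₂⟩ := K_sub_L_bound_h199 P
  have hnum := P.four_d_le_m
  refine ⟨fun x => P.L (rep x), ⟨C₁ + C₂ * P.d, fun x D hD hx hg => ?_⟩,
    ⟨C₁ + |P.L (rep 0)|, fun x y => ?_⟩⟩
  · -- `l x = L (rep x) = L D + O(1) = K D - ((2g-2)/m) N D + O(1)`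
    have e₁ := h₁ (rep x) D (by rw [hdeg, hD]) (by rw [hdeg]; omega) (by rw [hcls, hx])
      (hdisj x) (P.good_disj_Rt D hg)
    have e₂ := h₂ D hg
    rw [hD] at e₂
    have key : P.L (rep x) - (P.K D - ((2 * (P.g : ℝ) - 2) / P.m) * P.N D)
        = (P.L (rep x) - P.L D) + (P.L D - (P.K D - ((2 * (P.g : ℝ) - 2) / P.m) * P.N D)) := by
      ring
    show |P.L (rep x) - (P.K D - ((2 * (P.g : ℝ) - 2) / P.m) * P.N D)| ≤ C₁ + C₂ * P.d
    rw [key]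
    exact (abs_add_le _ _).trans (add_le_add e₁ e₂)
  · -- quasi-additivity through `rep (x+y) + rep 0 ∼ rep x + rep y`
    have hd₁ : P.Disj (rep (x + y) + rep 0) P.Rt :=
      (P.disj_add_left _ _ _).mpr ⟨hdisj _, hdisj _⟩
    have hd₂ : P.Disj (rep x + rep y) P.Rt :=
      (P.disj_add_left _ _ _).mpr ⟨hdisj _, hdisj _⟩
    have e := h₁ (rep (x + y) + rep 0) (rep x + rep y)
      (by simp only [map_add, hdeg])
      (by simp only [map_add, hdeg]; omega)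
      (by simp only [map_add, hcls, add_zero]) hd₁ hd₂
    rw [L_add_h199 P _ _ hd₁, L_add_h199 P _ _ hd₂] at e
    have key : P.L (rep (x + y)) - P.L (rep x) - P.L (rep y)
        = (P.L (rep (x + y)) + P.L (rep 0) - (P.L (rep x) + P.L (rep y))) - P.L (rep 0) := by
      ring
    show |P.L (rep (x + y)) - P.L (rep x) - P.L (rep y)| ≤ C₁ + |P.L (rep 0)|
    rw [key]
    exact (abs_sub _ _).trans (add_le_add e le_rfl)

end Fermat.Agent.S17.H199
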